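import Fermat.Agent.LT.T7.H305.MatchCut
import Fermat.Agent.LT.T7.H584.Cutoff

/-!
# Row LT, tower T7, leaf T7.L2.1.C2.7.3 `ArchMeasC305` (helper709, registry row 2567)

OFF-MAIN.  `archMeasC709 : Fermat.Agent.LT.T7.H305.ArchMeasC305`, VERBATIM vs
`LT/T7/H305/MatchCut.lean` (helper305@56ddcdc02, sha256 0f302b81), UNCONDITIONAL: the centraliser
of a regular element of `GL₂(ℂ)` has a Haar measure, and for every Haar measure of it there is a
continuous cut-off function.

* `cent_comm709` (algebra, any field): two elements of `GL₂(F)` which commute with a regular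
  element commute with each other (they are `a + b γ`).
* `GL₂(ℂ)` is locally compact, second countable (`Units.embedProduct` is a closed embedding
  into `M₂(ℂ) × M₂(ℂ)ᵐᵒᵖ`), hence `σ`-compact; the centraliser is closed.
* the cut-off function: `exists_cutoff584` of helper584 (`LT/T7/H584/Cutoff.lean`, Mathlib only,
  byte-identical copy of helper584@origin, sha256 cf7491c2): the Haar measure of the commutative
  group `cent305 γ` is right invariant.
-/

set_option autoImplicit false
set_option linter.style.haveILetI false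

open MeasureTheory

noncomputable section

namespace Fermat.Agent.LT.T7.H709

/-! ## 1. Algebra: the centraliser of a regular element is commutative -/

section Algebra

variable {F : Type} [Field F]

/-- Three numbers proportional to a non-zero triple. -/
theorem exists_prop709 {q r e b c a : F} (hg : q ≠ 0 ∨ r ≠ 0 ∨ e ≠ 0)
    (h1 : e * b = q * a) (h2 : r * a = c * e) (h3 : q * c = b * r) :
    ∃ l : F, b = l * q ∧ c = l * r ∧ a = l * e := by
  rcases hg with hq | hr | he
  · refine ⟨b / q, ?_, ?_, ?_⟩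
    · field_simp
    · field_simp
      linear_combination h3
    · field_simp
      linear_combination -h1
  · refine ⟨c / r, ?_, ?_, ?_⟩
    · field_simp
      linear_combination -h3
    · field_simp
    · field_simp
      linear_combination h2
  · refine ⟨a / e, ?_, ?_, ?_⟩
    · field_simp
      linear_combination h1
    · field_simp
      linear_combination -h2
    · field_simp

/-- The entries of a matrix which commutes with `g`. -/
theorem comm_entries709 (g x : Matrix (Fin 2) (Fin 2) F) (h : g * x = x * g) :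
    (g 0 0 - g 1 1) * x 0 1 = g 0 1 * (x 0 0 - x 1 1) ∧
    g 1 0 * (x 0 0 - x 1 1) = x 1 0 * (g 0 0 - g 1 1) ∧
    g 0 1 * x 1 0 = x 0 1 * g 1 0 := by
  have e00 := congrFun (congrFun h 0) 0
  have e01 := congrFun (congrFun h 0) 1
  have e10 := congrFun (congrFun h 1) 0
  simp only [Matrix.mul_apply, Fin.sum_univ_two] at e00 e01 e10
  refine ⟨?_, ?_, ?_⟩
  · linear_combination e01
  · linear_combination e10
  · linear_combination e00

/-- Two matrices which commute with a matrix of non-zero discriminant commute. -/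
theorem mat_comm709 (g x y : Matrix (Fin 2) (Fin 2) F)
    (hd : g.trace ^ 2 - 4 * g.det ≠ 0) (hx : g * x = x * g) (hy : g * y = y * g) :
    x * y = y * x := by
  have hg : g 0 1 ≠ 0 ∨ g 1 0 ≠ 0 ∨ g 0 0 - g 1 1 ≠ 0 := by
    by_contra hcon
    push Not at hcon
    obtain ⟨h1, h2, h3⟩ := hcon
    apply hd
    rw [Matrix.trace_fin_two, Matrix.det_fin_two, h1, h2]
    have h4 : g 0 0 = g 1 1 := sub_eq_zero.1 h3
    rw [h4]
    ring
  obtain ⟨x1, x2, x3⟩ := comm_entries709 g x hx
  obtain ⟨y1, y2, y3⟩ := comm_entries709 g y hy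
  obtain ⟨l, hb, hc, ha⟩ := exists_prop709 hg x1 x2 x3
  obtain ⟨l', hb', hc', ha'⟩ := exists_prop709 hg y1 y2 y3
  have hx00 : x 0 0 = x 1 1 + l * (g 0 0 - g 1 1) := by linear_combination ha
  have hy00 : y 0 0 = y 1 1 + l' * (g 0 0 - g 1 1) := by linear_combination ha'
  ext i j
  fin_cases i <;> fin_cases j <;>
    simp only [Fin.zero_eta, Fin.mk_one, Fin.isValue, Matrix.mul_apply, Fin.sum_univ_two,
      hx00, hy00, hb, hc, hb', hc'] <;> ring

/-- Two elements of `GL₂(F)` which commute with a regular element commute. -/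
theorem cent_comm709 (γ x y : GL (Fin 2) F) (hγ : T6.IsReg γ)
    (hx : x⁻¹ * γ * x = γ) (hy : y⁻¹ * γ * y = γ) : x * y = y * x := by
  have hd : (γ : Matrix (Fin 2) (Fin 2) F).trace ^ 2
      - 4 * (γ : Matrix (Fin 2) (Fin 2) F).det ≠ 0 := hγ.ne_zero
  have hx' : γ * x = x * γ := by
    calc γ * x = x * (x⁻¹ * γ * x) := by group
      _ = x * γ := by rw [hx]
  have hy' : γ * y = y * γ := by
    calc γ * y = y * (y⁻¹ * γ * y) := by group
      _ = y * γ := by rw [hy]
  apply Units.ext
  rw [Units.val_mul, Units.val_mul]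
  refine mat_comm709 (γ : Matrix (Fin 2) (Fin 2) F) _ _ hd ?_ ?_
  · rw [← Units.val_mul, ← Units.val_mul, hx']
  · rw [← Units.val_mul, ← Units.val_mul, hy']

end Algebra

/-! ## 2. Topology of `GL₂(ℂ)` -/

theorem locallyCompact_GL2C709 : LocallyCompactSpace (GL (Fin 2) ℂ) := by
  haveI : LocallyCompactSpace (Matrix (Fin 2) (Fin 2) ℂ) :=
    inferInstanceAs (LocallyCompactSpace (Fin 2 → Fin 2 → ℂ))
  haveI : LocallyCompactSpace (Matrix (Fin 2) (Fin 2) ℂ)ᵐᵒᵖ :=
    (MulOpposite.opHomeomorph
      (M := Matrix (Fin 2) (Fin 2) ℂ)).symm.isClosedEmbedding.locallyCompactSpace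
  exact (Units.isClosedEmbedding_embedProduct
    (α := Matrix (Fin 2) (Fin 2) ℂ)).locallyCompactSpace

theorem secondCountable_GL2C709 : SecondCountableTopology (GL (Fin 2) ℂ) := by
  haveI : SecondCountableTopology (Matrix (Fin 2) (Fin 2) ℂ) :=
    inferInstanceAs (SecondCountableTopology (Fin 2 → Fin 2 → ℂ))
  haveI : SecondCountableTopology (Matrix (Fin 2) (Fin 2) ℂ)ᵐᵒᵖ :=
    MulOpposite.opHomeomorph.symm.secondCountableTopology
  exact (Units.isEmbedding_embedProduct
    (M := Matrix (Fin 2) (Fin 2) ℂ)).secondCountableTopology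

theorem sigmaCompact_GL2C709 : SigmaCompactSpace (GL (Fin 2) ℂ) := by
  haveI := locallyCompact_GL2C709
  haveI := secondCountable_GL2C709
  infer_instance

/-- The centraliser is closed. -/
theorem isClosed_cent709 {H : Type} [Group H] [TopologicalSpace H] [IsTopologicalGroup H]
    [T2Space H] (γ : H) : IsClosed ((H305.cent305 γ : Subgroup H) : Set H) := by
  have h : ((H305.cent305 γ : Subgroup H) : Set H) = {x : H | x⁻¹ * γ * x = γ} := rfl
  rw [h]
  exact isClosed_eq ((continuous_inv.mul continuous_const).mul continuous_id) continuous_const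

/-! ## 3. The leaf -/

/-- **T7.L2.1.C2.7.3 = `ArchMeasC305`.** -/
theorem archMeasC709 : H305.ArchMeasC305 := by
  intro γ hγ
  haveI := locallyCompact_GL2C709
  haveI := sigmaCompact_GL2C709
  have hcl : IsClosed ((H305.cent305 γ : Subgroup (GL (Fin 2) ℂ)) : Set (GL (Fin 2) ℂ)) :=
    isClosed_cent709 γ
  haveI : LocallyCompactSpace (H305.cent305 γ) :=
    hcl.isClosedEmbedding_subtypeVal.locallyCompactSpace
  letI : MeasurableSpace (H305.cent305 γ) := borel _
  haveI : BorelSpace (H305.cent305 γ) := ⟨rfl⟩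
  refine ⟨⟨Measure.haar, inferInstance⟩, ?_⟩
  intro μT hμT
  haveI := hμT
  haveI : μT.IsMulRightInvariant := ⟨fun g => by
    have e : (fun t : H305.cent305 γ => t * g) = fun t => g * t := by
      funext t
      apply Subtype.ext
      exact cent_comm709 γ t g hγ t.2 g.2
    rw [e]
    exact map_mul_left_eq_self μT g⟩
  obtain ⟨β, hβc, hβ0, -, hβ1⟩ := H584.exists_cutoff584 (H305.cent305 γ) μT hcl
  exact ⟨β, hβc, hβ0, hβ1⟩

end Fermat.Agent.LT.T7.H709

end
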